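import Fermat.Agent.LevelRaising.Cusps.Primitive
import Fermat.Agent.LevelRaising.Equivariant

/-!
# `T_ℓ - (1 + ℓ)` on functions on cusps
-/

set_option autoImplicit false

noncomputable section

namespace Fermat.Agent.LevelRaising

open CongruenceSubgroup Fermat.Agent.Periods Function
open Matrix.SpecialLinearGroup
open scoped MatrixGroups Matrix

variable {A : Type*} [AddCommGroup A]

/-- An integral matrix commutes with scaling of vectors. -/
theorem actM_smul (B : Matrix (Fin 2) (Fin 2) ℤ) (c : ℚ) (x : Fin 2 → ℚ) :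
    actM B (c • x) = c • actM B x := by simp [actM, Matrix.mulVec_smul]

/-- A matrix of nonzero determinant preserves nonzero vectors. -/
theorem actM_ne_zero {B : Matrix (Fin 2) (Fin 2) ℤ} (hB : B.det ≠ 0) {x : Fin 2 → ℚ}
    (hx : x ≠ 0) : actM B x ≠ 0 := fun h => hx <| by
  refine Matrix.eq_zero_of_mulVec_eq_zero ?_ h
  rw [show B.map (fun z : ℤ => (z : ℚ)) = (Int.castRingHom ℚ).mapMatrix B from rfl,
    ← RingHom.map_det]
  exact Int.cast_ne_zero.mpr hB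

/-- `alphaMat q` acts as `diag(q, 1)`. -/
theorem actM_alphaMat (q : ℕ) (x : Fin 2 → ℚ) :
    actM (alphaMat q) x = !![(q : ℚ), 0; 0, 1] *ᵥ x := by
  rw [actM]; congr 1
  ext i j; fin_cases i <;> fin_cases j <;> simp [alphaMat]

theorem act_upr (k : ℤ) : act (upr k) ![1, 0] = ![1, 0] := by
  ext i; fin_cases i <;> simp [act_apply]

/-- the periods of a function on cusps -/
def HasPeriods (L : ℕ) (ψ : (Fin 2 → ℚ) → A) (χ : Additive (Gamma0 L) →+ A) : Prop :=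
  ∀ (γ : Gamma0 L) (x : Fin 2 → ℚ), x ≠ 0 →
    ψ (act (γ : SL(2, ℤ)) x) = ψ x + χ (Additive.ofMul γ)

/-- Integral translations lie in every `Γ₀(L)`. -/
theorem upr_mem_Gamma0 (L : ℕ) (k : ℤ) : upr k ∈ Gamma0 L := by
  rw [Gamma0_mem, ZMod.intCast_zmod_eq_zero_iff_dvd]; simp

namespace HasPeriods

variable {L : ℕ} {ψ : (Fin 2 → ℚ) → A} {χ : Additive (Gamma0 L) →+ A}

theorem mem (h : HasPeriods L ψ χ) (γ : Gamma0 L) :
    ∃ hg : intSL (γ : SL(2, ℤ)) ∈ quasiGroup ψ,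
      quasiHom ψ ⟨intSL (γ : SL(2, ℤ)), hg⟩ = Multiplicative.ofAdd (χ (Additive.ofMul γ)) :=
  quasiHom_mem ψ _ fun x hx => h γ x hx

theorem upr_eq_zero (h : HasPeriods L ψ χ) (k : ℤ) :
    χ (Additive.ofMul ⟨upr k, upr_mem_Gamma0 L k⟩) = 0 := by
  have := h ⟨upr k, upr_mem_Gamma0 L k⟩ ![1, 0] basisVec_ne_zero
  rw [show act (upr k : SL(2, ℤ)) ![1, 0] = ![1, 0] from act_upr k] at this
  exact left_eq_add.mp this

end HasPeriods

variable (ℓ : ℕ) [NeZero ℓ]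

/-- `T_ℓ - (1 + ℓ)` on functions on cusps -/
def tFun (ψ : (Fin 2 → ℚ) → A) (x : Fin 2 → ℚ) : A :=
  ∑ j : Option (ZMod ℓ), ψ (actM (tMat ℓ j) x) - (1 + ℓ) • ψ x

/-- The representatives of `T_ℓ` are nonsingular. -/
theorem det_tMat_ne_zero (j : Option (ZMod ℓ)) : (tMat ℓ j).det ≠ 0 := by
  simp [det_tMat, NeZero.ne ℓ]

/-- `T_ℓ - (1 + ℓ)` only depends on the values at nonzero vectors. -/
theorem tFun_congr {ψ φ : (Fin 2 → ℚ) → A} (h : ∀ x, x ≠ 0 → ψ x = φ x) {x : Fin 2 → ℚ}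
    (hx : x ≠ 0) : tFun ℓ ψ x = tFun ℓ φ x := by
  rw [tFun, tFun, h x hx, Finset.sum_congr rfl fun j _ =>
    h _ (actM_ne_zero (det_tMat_ne_zero ℓ j) hx)]

theorem card_tReps : Fintype.card (Option (ZMod ℓ)) = 1 + ℓ := by
  rw [Fintype.card_option, ZMod.card, add_comm]

/-- `T_ℓ - (1 + ℓ)` kills constants. -/
theorem tFun_const (c : A) (x : Fin 2 → ℚ) : tFun ℓ (fun _ => c) x = 0 := by
  rw [tFun, Finset.sum_const, Finset.card_univ, card_tReps, sub_self]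

/-- `T_ℓ - (1 + ℓ)` is additive. -/
theorem tFun_add (ψ φ : (Fin 2 → ℚ) → A) (x : Fin 2 → ℚ) :
    tFun ℓ (fun y => ψ y + φ y) x = tFun ℓ ψ x + tFun ℓ φ x := by
  simp only [tFun, Finset.sum_add_distrib, smul_add]; abel

/-- `T_ℓ - (1 + ℓ)` commutes with integer multiples. -/
theorem tFun_zsmul (e : ℤ) (ψ : (Fin 2 → ℚ) → A) (x : Fin 2 → ℚ) :
    tFun ℓ (fun y => e • ψ y) x = e • tFun ℓ ψ x := by
  simp only [tFun, smul_sub, Finset.smul_sum, smul_comm e (1 + ℓ)]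

/-- `T_ℓ - (1 + ℓ)` preserves functions on cusps. -/
theorem IsCuspFun.tFun {ψ : (Fin 2 → ℚ) → A} (h : IsCuspFun ψ) : IsCuspFun (tFun ℓ ψ) :=
  fun c x hc hx => by
    simp only [LevelRaising.tFun, actM_smul, h c x hc hx,
      h c _ hc (actM_ne_zero (det_tMat_ne_zero ℓ _) hx)]

variable {ℓ}

/-- If `L ∣ ℓ - 1` then each representative of `T_ℓ` moves a cusp inside its `Γ₀(L)`-orbit, up to
scaling. -/
theorem exists_act_eq_actM (hℓ : ℓ.Prime) {L : ℕ} (hL : (L : ℤ) ∣ (ℓ : ℤ) - 1)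
    (j : Option (ZMod ℓ)) {x : Fin 2 → ℚ} (hx : x ≠ 0) :
    ∃ (γ : Gamma0 L) (c : ℚ), c ≠ 0 ∧ actM (tMat ℓ j) x = c • act (γ : SL(2, ℤ)) x := by
  obtain ⟨d, a, hd, ha, rfl⟩ := exists_primitive_vec hx
  -- the translate by the integral part
  let k : ℤ := match j with
    | none => 0
    | some y => (y.val : ℤ)
  let b : Fin 2 → ℤ := tMat ℓ j *ᵥ a
  have hb : actM (tMat ℓ j) (castQ a) = castQ b := by
    ext i; fin_cases i <;> simp [actM, castQ, b, Matrix.mulVec, dotProduct, Fin.sum_univ_two]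
  have hb0 : b ≠ 0 := fun h0 => actM_ne_zero (det_tMat_ne_zero ℓ j) (castQ_ne_zero ha) <| by
    rw [hb, h0]; ext i; simp [castQ]
  set g := Int.gcd (b 0) (b 1) with hgdef
  have hg : g ≠ 0 := fun h0 => hb0 <| by
    obtain ⟨h0, h1⟩ := Int.gcd_eq_zero_iff.mp h0
    ext i; fin_cases i <;> simp [h0, h1]
  obtain ⟨b0, hb0'⟩ := Int.gcd_dvd_left (b 0) (b 1)
  obtain ⟨b1, hb1'⟩ := Int.gcd_dvd_right (b 0) (b 1)
  rw [← hgdef] at hb0' hb1'
  have hcop : IsCoprime b0 b1 := by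
    rw [Int.isCoprime_iff_gcd_eq_one]
    have := Int.gcd_div_gcd_div_gcd (Nat.pos_of_ne_zero hg)
    rwa [← hgdef, Int.ediv_eq_of_eq_mul_right (by omega) hb0',
      Int.ediv_eq_of_eq_mul_right (by omega) hb1'] at this
  -- the content divides `ℓ`
  have hgl : (g : ℤ) ∣ ℓ := by
    have e : (tMat ℓ j).adjugate *ᵥ b = (ℓ : ℤ) • a := by
      rw [show b = tMat ℓ j *ᵥ a from rfl, Matrix.mulVec_mulVec, Matrix.adjugate_mul, det_tMat,
        Matrix.smul_mulVec, Matrix.one_mulVec]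
    have hi : ∀ i, (g : ℤ) ∣ (ℓ : ℤ) * a i := fun i => by
      have := congrFun e i
      simp only [Matrix.mulVec, dotProduct, Fin.sum_univ_two, Pi.smul_apply, smul_eq_mul] at this
      rw [← this, hb0', hb1']
      exact dvd_add (dvd_mul_of_dvd_right (dvd_mul_right _ _) _)
        (dvd_mul_of_dvd_right (dvd_mul_right _ _) _)
    obtain ⟨s, t, hst⟩ := ha
    have : (ℓ : ℤ) = s * ((ℓ : ℤ) * a 0) + t * ((ℓ : ℤ) * a 1) := by
      linear_combination (-(ℓ : ℤ)) * hst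
    rw [this]
    exact dvd_add ((hi 0).mul_left _) ((hi 1).mul_left _)
  have hgmod : (L : ℤ) ∣ (g : ℤ) - 1 := by
    rcases (Nat.dvd_prime hℓ).mp (Int.natCast_dvd_natCast.mp hgl) with h1 | h1 <;> rw [h1]
    · simp
    · exact hL
  have e0 : (L : ℤ) ∣ b 0 - (a 0 + k * a 1) ∧ (L : ℤ) ∣ b 1 - a 1 := by
    cases j with
    | none =>
      simp only [k, b, tMat, Matrix.mulVec, dotProduct, Fin.sum_univ_two, Matrix.cons_val',
        Matrix.cons_val_zero, Matrix.cons_val_one, Matrix.of_apply, Matrix.cons_val_fin_one]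
      refine ⟨?_, by simp⟩
      rw [show (ℓ : ℤ) * a 0 + 0 * a 1 - (a 0 + 0 * a 1) = ((ℓ : ℤ) - 1) * a 0 by ring]
      exact hL.mul_right _
    | some y =>
      simp only [k, b, tMat, Matrix.mulVec, dotProduct, Fin.sum_univ_two, Matrix.cons_val',
        Matrix.cons_val_zero, Matrix.cons_val_one, Matrix.of_apply, Matrix.cons_val_fin_one]
      refine ⟨by ring_nf; simp, ?_⟩
      rw [show 0 * a 0 + (ℓ : ℤ) * a 1 - a 1 = ((ℓ : ℤ) - 1) * a 1 by ring]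
      exact hL.mul_right _
  have hcop2 : IsCoprime (a 0 + k * a 1) (a 1) := ha.add_mul_right_left k
  obtain ⟨γ, hγ1, hγ⟩ := exists_gammaM (M := L) (v := ![b0, b1]) (w := ![a 0 + k * a 1, a 1])
    (by simpa using hcop) (by simpa using hcop2) (fun i => by
      fin_cases i <;> simp only [Fin.zero_eta, Fin.mk_one, Matrix.cons_val_zero,
        Matrix.cons_val_one]
      · rw [show b0 - (a 0 + k * a 1) = (b 0 - (a 0 + k * a 1)) - ((g : ℤ) - 1) * b0 by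
          rw [hb0']; ring]
        exact dvd_sub e0.1 (hgmod.mul_right _)
      · rw [show b1 - a 1 = (b 1 - a 1) - ((g : ℤ) - 1) * b1 by rw [hb1']; ring]
        exact dvd_sub e0.2 (hgmod.mul_right _))
  have hγL : γ ∈ Gamma0 L := by
    rw [Gamma0_mem]
    have := ((slMap_eq_one_iff _ γ).mp hγ1).2.2.1
    simpa using this
  refine ⟨⟨γ, hγL⟩ * ⟨upr k, upr_mem_Gamma0 L k⟩, g, by exact_mod_cast hg, ?_⟩
  have hu : actZ (upr k) a = ![a 0 + k * a 1, a 1] := by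
    ext i; fin_cases i <;> simp [actZ, Matrix.mulVec, dotProduct, Fin.sum_univ_two]
  have hbv : castQ b = (g : ℚ) • castQ ![b0, b1] := by
    ext i; fin_cases i <;> simp [castQ, hb0', hb1']
  rw [actM_smul, act_smul, Subgroup.coe_mul, act_mul, act_castQ, act_castQ, hu, hγ, hb, hbv,
    smul_comm]

/-- If `L ∣ ℓ - 1`, functions on cusps invariant under `Γ₀(L)` are killed by `T_ℓ - (1 + ℓ)`. -/
theorem tFun_eq_zero_of_invariant (hℓ : ℓ.Prime) {L : ℕ} (hL : (L : ℤ) ∣ (ℓ : ℤ) - 1)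
    {f : (Fin 2 → ℚ) → A} (hf : IsCuspFun f) (h : HasPeriods L f 0) {x : Fin 2 → ℚ} (hx : x ≠ 0) :
    tFun ℓ f x = 0 := by
  have : ∀ j, f (actM (tMat ℓ j) x) = f x := fun j => by
    obtain ⟨γ, c, hc, e⟩ := exists_act_eq_actM hℓ hL j hx
    rw [e, hf c _ hc (act_ne_zero _ hx), h γ x hx, AddMonoidHom.zero_apply, add_zero]
  rw [tFun, Finset.sum_congr rfl fun j _ => this j, Finset.sum_const, Finset.card_univ, card_tReps,
    sub_self]

section Level

variable {L : ℕ} [NeZero L] {ψ : (Fin 2 → ℚ) → A} {χ : Additive (Gamma0 L) →+ A}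

omit [NeZero L] in
theorem tMat_spec (hℓ : ℓ.Prime) (hℓL : ¬ ℓ ∣ L) (γ : Gamma0 L) (j : Option (ZMod ℓ)) :
    tMat ℓ j * ((γ : SL(2, ℤ)) : Matrix (Fin 2) (Fin 2) ℤ) =
      (((systemT hℓ hℓL).cocycle γ j : SL(2, ℤ)) : Matrix (Fin 2) (Fin 2) ℤ) *
        tMat ℓ ((systemT hℓ hℓL).perm γ j) := by
  have e := (systemT hℓ hℓL).spec γ j
  refine of_mul_mapGL_eq (det_tMat_ne_zero ℓ j) (det_tMat_ne_zero ℓ _) _ _ ?_
  rw [← heckeRep_eq_intGL hℓ.ne_zero, ← heckeRep_eq_intGL hℓ.ne_zero]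
  exact e

omit [NeZero L] in
/-- The periods of `(T_ℓ - 1 - ℓ) ψ` are those of `ψ` under `T_ℓ - 1 - ℓ`. -/
theorem HasPeriods.tFun (h : HasPeriods L ψ χ) (hℓ : ℓ.Prime) (hℓL : ¬ ℓ ∣ L) :
    HasPeriods L (LevelRaising.tFun ℓ ψ) (homT hℓ hℓL ℤ χ - (1 + ℓ) • χ) := by
  intro γ x hx
  have e : ∀ j, ψ (actM (tMat ℓ j) (act (γ : SL(2, ℤ)) x)) =
      ψ (actM (tMat ℓ ((systemT hℓ hℓL).perm γ j)) x) +
        χ (Additive.ofMul ((systemT hℓ hℓL).cocycle γ j)) := fun j => by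
    rw [← actM_eq_act, ← actM_mul, tMat_spec hℓ hℓL γ j, actM_mul, actM_eq_act,
      h _ _ (actM_ne_zero (det_tMat_ne_zero ℓ _) hx)]
  rw [AddMonoidHom.sub_apply, homT, HeckeSystem.op_apply, HeckeSystem.apply_apply]
  simp only [LevelRaising.tFun, e, Finset.sum_add_distrib,
    ((systemT hℓ hℓL).perm_bijective γ).sum_comp fun j => ψ (actM (tMat ℓ j) x), h γ x hx,
    smul_add]
  rw [show ((1 + ℓ) • χ) (Additive.ofMul γ) = (1 + ℓ) • χ (Additive.ofMul γ) from rfl]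
  abel

omit [NeZero L] in
/-- A homomorphism factoring modulo `M ∣ ℓ - 1` and vanishing on translations is multiplied by
`1 + ℓ` under `T_ℓ`. -/
theorem homT_eq_smul (hℓ : ℓ.Prime) (hℓL : ¬ ℓ ∣ L) {M : ℕ} (hM : (M : ℤ) ∣ (ℓ : ℤ) - 1)
    (h1 : ∀ γ : Gamma0 L, slMap (Int.castRingHom (ZMod M)) (γ : SL(2, ℤ)) = 1 →
      χ (Additive.ofMul γ) = 0)
    (hu : ∀ k : ℤ, χ (Additive.ofMul ⟨upr k, upr_mem_Gamma0 L k⟩) = 0) :
    homT hℓ hℓL ℤ χ = (1 + ℓ) • χ := by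
  refine AddMonoidHom.ext fun y => ?_
  rw [← ofMul_toMul y]
  set γ := Additive.toMul y
  let k : Option (ZMod ℓ) → ℤ := fun j => match j with
    | none => 0
    | some y => (y.val : ℤ)
  have hℓ1 : ((ℓ : ℤ) : ZMod M) = 1 := by
    rw [← sub_eq_zero, ← Int.cast_one, ← Int.cast_sub, ZMod.intCast_zmod_eq_zero_iff_dvd]
    exact hM
  have hk : ∀ j, (tMat ℓ j).map (Int.castRingHom (ZMod M)) =
      ((slMap (Int.castRingHom (ZMod M)) (upr (k j)) : SL(2, ZMod M)) : Matrix (Fin 2) (Fin 2)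
          (ZMod M)) := by
    intro j
    push_cast at hℓ1
    cases j <;> ext a b <;> fin_cases a <;> fin_cases b <;> simp [k, tMat, hℓ1]
  have key : ∀ j, χ (Additive.ofMul ((systemT hℓ hℓL).cocycle γ j)) = χ (Additive.ofMul γ) := by
    intro j
    set c := (systemT hℓ hℓL).cocycle γ j
    set j' := (systemT hℓ hℓL).perm γ j
    set f := slMap (Int.castRingHom (ZMod M))
    have e : f (upr (k j)) * f (γ : SL(2, ℤ)) = f (c : SL(2, ℤ)) * f (upr (k j')) := by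
      apply Subtype.ext
      have := congrArg (fun B : Matrix (Fin 2) (Fin 2) ℤ => B.map (Int.castRingHom (ZMod M)))
        (tMat_spec hℓ hℓL γ j)
      simp only [Matrix.map_mul, hk] at this
      rw [coe_mul, coe_mul]
      exact this
    set d : Gamma0 L := ⟨upr (k j), upr_mem_Gamma0 L _⟩ * γ * ⟨upr (k j'), upr_mem_Gamma0 L _⟩⁻¹
    have hd : f ((c⁻¹ * d : Gamma0 L) : SL(2, ℤ)) = 1 := by
      simp only [d, Subgroup.coe_mul, InvMemClass.coe_inv, map_mul, map_inv, e,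
        mul_inv_cancel_right, inv_mul_cancel]
    have := h1 _ hd
    rw [ofMul_mul, ofMul_inv, map_add, map_neg, neg_add_eq_zero] at this
    rw [this, ofMul_mul, ofMul_mul, ofMul_inv, map_add, map_add, map_neg, hu, hu, zero_add,
      neg_zero, add_zero]
  rw [homT, HeckeSystem.op_apply, HeckeSystem.apply_apply, Finset.sum_congr rfl fun j _ => key j,
    Finset.sum_const, Finset.card_univ, card_tReps]
  rfl

/-- `diag(q, 1)` permutes the representatives up to translations. -/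
theorem exists_alpha_tMat (hℓ : ℓ.Prime) {q : ℕ} (hq : ¬ ℓ ∣ q) :
    ∃ (σ : Option (ZMod ℓ) → Option (ZMod ℓ)) (n : Option (ZMod ℓ) → ℤ), Bijective σ ∧
      ∀ j, alphaMat q * tMat ℓ j =
        ((upr (n j) : SL(2, ℤ)) : Matrix (Fin 2) (Fin 2) ℤ) * (tMat ℓ (σ j) * alphaMat q) := by
  have : Fact ℓ.Prime := ⟨hℓ⟩
  have hq0 : (q : ZMod ℓ) ≠ 0 := fun h0 => hq ((ZMod.natCast_eq_zero_iff _ _).mp h0)
  let σ : Option (ZMod ℓ) → Option (ZMod ℓ) := Option.map fun y => (q : ZMod ℓ) * y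
  have hσ : Bijective σ :=
    Finite.injective_iff_bijective.mp (Option.map_injective (mul_right_injective₀ hq0))
  let n : Option (ZMod ℓ) → ℤ := fun j => match j with
    | none => 0
    | some y => ((q : ℤ) * y.val - ((q : ZMod ℓ) * y).val) / ℓ
  have key : ∀ j, alphaMat q * tMat ℓ j =
      ((upr (n j) : SL(2, ℤ)) : Matrix (Fin 2) (Fin 2) ℤ) * (tMat ℓ (σ j) * alphaMat q) := by
    intro j
    cases j with
    | none =>
      ext a b; fin_cases a <;> fin_cases b <;>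
        simp [alphaMat, tMat, σ, n, Matrix.mul_apply, Fin.sum_univ_two, mul_comm]
    | some y =>
      have hdvd : (ℓ : ℤ) ∣ (q : ℤ) * y.val - ((q : ZMod ℓ) * y).val := by
        rw [← ZMod.intCast_zmod_eq_zero_iff_dvd]; push_cast; simp
      have hn : n (some y) * (ℓ : ℤ) = (q : ℤ) * y.val - ((q : ZMod ℓ) * y).val :=
        Int.ediv_mul_cancel hdvd
      ext a b; fin_cases a <;> fin_cases b <;>
        simp [alphaMat, tMat, σ, Matrix.mul_apply, Fin.sum_univ_two, -ZMod.natCast_val]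
      linear_combination -hn
  exact ⟨σ, n, hσ, key⟩

omit [NeZero L] in
/-- Composition with `diag(q, 1)` commutes with `T_ℓ` up to constants. -/
theorem exists_tFun_alpha (h : HasPeriods L ψ χ) (hℓ : ℓ.Prime) {q : ℕ} (hq : ¬ ℓ ∣ q) :
    ∃ c : A, ∀ x, x ≠ 0 →
      LevelRaising.tFun ℓ (fun y => ψ (actM (alphaMat q) y)) x =
        LevelRaising.tFun ℓ ψ (actM (alphaMat q) x) + c := by
  obtain ⟨σ, n, hσ, key⟩ := exists_alpha_tMat hℓ hq
  refine ⟨∑ j, χ (Additive.ofMul ⟨upr (n j), upr_mem_Gamma0 L _⟩), fun x hx => ?_⟩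
  have hα : actM (alphaMat q) x ≠ 0 := actM_ne_zero (by
    simp [alphaMat, Matrix.det_fin_two_of]; rintro rfl; exact hq (dvd_zero ℓ)) hx
  have e : ∀ j, ψ (actM (alphaMat q) (actM (tMat ℓ j) x)) =
      ψ (actM (tMat ℓ (σ j)) (actM (alphaMat q) x)) +
        χ (Additive.ofMul ⟨upr (n j), upr_mem_Gamma0 L _⟩) := fun j => by
    rw [← actM_mul, key, actM_mul, actM_eq_act, actM_mul,
      h ⟨upr (n j), upr_mem_Gamma0 L _⟩ _ (actM_ne_zero (det_tMat_ne_zero ℓ _) hα)]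
  simp only [LevelRaising.tFun, e, Finset.sum_add_distrib,
    hσ.sum_comp fun j => ψ (actM (tMat ℓ j) (actM (alphaMat q) x))]
  abel

end Level

/-- A quasi-invariant function for the big group is killed by the square. -/
theorem tFun_tFun_eq_zero {q N p : ℕ} (hq : q.Prime) (hqN : ¬ q ∣ N) (hp : p.Prime)
    (hp2 : p ≠ 2) (hA : ∀ a : A, p • a = 0) (hℓ : ℓ.Prime) (hℓN : ¬ ℓ ∣ N)
    (hlev : (levelM q N : ℤ) ∣ (ℓ : ℤ) - 1)
    {ψ : (Fin 2 → ℚ) → A} {χ : Additive (Gamma0 N) →+ A} (hψ : IsCuspFun ψ)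
    (h : HasPeriods N ψ χ) (hU : upr ((q : ℚ)⁻¹) ∈ quasiGroup ψ)
    {x : Fin 2 → ℚ} (hx : x ≠ 0) : tFun ℓ (tFun ℓ ψ) x = 0 := by
  have h1 : ∀ γ : Gamma0 N, slMap (Int.castRingHom (ZMod (levelM q N))) (γ : SL(2, ℤ)) = 1 →
      χ (Additive.ofMul γ) = 0 := fun γ hγ => by
    obtain ⟨hg, e⟩ := h.mem γ
    have := quasiHom_eq_one hq hqN hp hp2 hA ψ (fun δ hδ => (h.mem ⟨δ, hδ⟩).1) hU γ.2 hγ
    rw [show (⟨intSL (γ : SL(2, ℤ)), (h.mem ⟨(γ : SL(2, ℤ)), γ.2⟩).1⟩ : quasiGroup ψ) =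
      ⟨intSL (γ : SL(2, ℤ)), hg⟩ from rfl, e] at this
    exact Multiplicative.ofAdd.injective this
  have hper := h.tFun hℓ hℓN
  rw [homT_eq_smul hℓ hℓN hlev h1 h.upr_eq_zero, sub_self] at hper
  exact tFun_eq_zero_of_invariant hℓ ((Int.natCast_dvd_natCast.mpr dvd_levelM).trans hlev)
    (hψ.tFun ℓ) hper hx

end Fermat.Agent.LevelRaising
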