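import Fermat.Agent.LevelRaising.Cusps.Quasi
import Fermat.Prelude.Def_ModularCurve_PeriodMap

/-!
# Orbits of cusps, and functions on cusps attached to parabolic homomorphisms
-/

set_option autoImplicit false

noncomputable section

namespace Fermat.Agent.LevelRaising

open Matrix
open ModularCurve.Period
open scoped MatrixGroups

/-- casting an integral vector -/
def castQ (a : Fin 2 → ℤ) : Fin 2 → ℚ := fun i => (a i : ℚ)

/-- A nonzero rational vector is a scalar times a primitive integral one. -/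
theorem exists_primitive_vec {x : Fin 2 → ℚ} (hx : x ≠ 0) :
    ∃ (c : ℚ) (a : Fin 2 → ℤ), c ≠ 0 ∧ IsCoprime (a 0) (a 1) ∧ x = c • castQ a := by
  obtain ⟨d, b, hd, hb⟩ := exists_int_multiple x
  have hb0 : b ≠ 0 := fun h => hx <| by
    subst h
    rw [show (fun i => (((0 : Fin 2 → ℤ) i : ℤ) : ℚ)) = 0 from funext fun i => by simp] at hb
    exact (smul_eq_zero.mp hb).resolve_left hd
  have hg : Int.gcd (b 0) (b 1) ≠ 0 := fun h => hb0 <| by
    obtain ⟨h0, h1⟩ := Int.gcd_eq_zero_iff.mp h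
    ext i; fin_cases i <;> simp [h0, h1]
  set g := Int.gcd (b 0) (b 1) with hgdef
  obtain ⟨a0, ha0⟩ := Int.gcd_dvd_left (b 0) (b 1)
  obtain ⟨a1, ha1⟩ := Int.gcd_dvd_right (b 0) (b 1)
  refine ⟨(g : ℚ) / d, ![a0, a1], div_ne_zero (by exact_mod_cast hg) hd, ?_, ?_⟩
  · rw [Int.isCoprime_iff_gcd_eq_one]
    have := Int.gcd_div_gcd_div_gcd (Nat.pos_of_ne_zero hg)
    rw [← hgdef, Int.ediv_eq_of_eq_mul_right (by omega) ha0,
      Int.ediv_eq_of_eq_mul_right (by omega) ha1] at this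
    simpa using this
  · ext i
    have := congrFun hb i
    simp only [Pi.smul_apply, smul_eq_mul] at this
    rw [← hgdef] at ha0 ha1
    fin_cases i <;> simp only [Fin.zero_eta, Fin.mk_one, Pi.smul_apply, smul_eq_mul, castQ,
      Matrix.cons_val_zero, Matrix.cons_val_one] at this ⊢
    · rw [ha0] at this; push_cast at this; field_simp; linear_combination this
    · rw [ha1] at this; push_cast at this; field_simp; linear_combination this

/-- A primitive vector is nonzero. -/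
theorem castQ_ne_zero {a : Fin 2 → ℤ} (ha : IsCoprime (a 0) (a 1)) : castQ a ≠ 0 := fun h => by
  have h0 := congrFun h 0
  have h1 := congrFun h 1
  simp [castQ] at h0 h1
  rw [h0, h1] at ha
  exact not_isCoprime_zero_zero ha

/-- Congruent primitive vectors are moved into each other by the principal congruence subgroup. -/
theorem exists_gammaM {M : ℕ} {v w : Fin 2 → ℤ} (hv : IsCoprime (v 0) (v 1))
    (hw : IsCoprime (w 0) (w 1)) (h : ∀ i, (M : ℤ) ∣ v i - w i) :
    ∃ γ : SL(2, ℤ), slMap (Int.castRingHom (ZMod M)) γ = 1 ∧ actZ γ w = v := by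
  obtain ⟨s, t, hst⟩ := hw
  set σ : SL(2, ℤ) := ⟨!![w 0, -t; w 1, s], by rw [Matrix.det_fin_two_of]; linear_combination hst⟩
    with hσ
  set v' : Fin 2 → ℤ := actZ σ⁻¹ v with hv'
  have e0 : v' 0 = s * v 0 + t * v 1 := by
    simp [hv', hσ, actZ, Matrix.adjugate_fin_two, dotProduct, Fin.sum_univ_two]
  have e1 : v' 1 = -(w 1) * v 0 + w 0 * v 1 := by
    simp [hv', hσ, actZ, Matrix.adjugate_fin_two, dotProduct, Fin.sum_univ_two]
  obtain ⟨p0, hp0⟩ := h 0
  obtain ⟨p1, hp1⟩ := h 1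
  have d0 : (M : ℤ) ∣ v' 0 - 1 := ⟨s * p0 + t * p1, by
    rw [e0]; linear_combination s * hp0 + t * hp1 + hst⟩
  have d1 : (M : ℤ) ∣ v' 1 := ⟨-(w 1) * p0 + w 0 * p1, by
    rw [e1]; linear_combination -(w 1) * hp0 + w 0 * hp1⟩
  obtain ⟨x, y, hxy⟩ : IsCoprime (v' 0) (v' 1) := by
    obtain ⟨x, y, hxy⟩ := hv
    refine ⟨w 0 * x + w 1 * y, -t * x + s * y, ?_⟩
    rw [e0, e1]
    linear_combination (s * w 0 + t * w 1) * hxy + hst
  -- shift to make the second column congruent to `(0, 1)`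
  set δ : SL(2, ℤ) := ⟨!![v' 0, -y + y * v' 0; v' 1, x + y * v' 1], by
    rw [Matrix.det_fin_two_of]; linear_combination hxy⟩ with hδ
  have hδ1 : slMap (Int.castRingHom (ZMod M)) δ = 1 := by
    rw [slMap_eq_one_iff]
    have z0 : ((v' 0 : ℤ) : ZMod M) = 1 := by
      rw [← sub_eq_zero, ← Int.cast_one, ← Int.cast_sub, ZMod.intCast_zmod_eq_zero_iff_dvd]
      exact d0
    have z1 : ((v' 1 : ℤ) : ZMod M) = 0 := (ZMod.intCast_zmod_eq_zero_iff_dvd _ _).mpr d1
    have z2 : ((x : ℤ) : ZMod M) = 1 := by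
      have := congrArg (Int.cast : ℤ → ZMod M) hxy
      push_cast at this
      simpa [z0, z1] using this
    simp [hδ, z0, z1, z2]
  refine ⟨σ * δ * σ⁻¹, by simp [hδ1], ?_⟩
  have hw' : actZ σ⁻¹ w = ![1, 0] := by
    ext i
    fin_cases i <;>
      simp [hσ, actZ, Matrix.adjugate_fin_two, Matrix.mulVec, dotProduct, Fin.sum_univ_two]
    · linear_combination hst
    · ring
  have hmul : ∀ (g k : SL(2, ℤ)) (a : Fin 2 → ℤ), actZ (g * k) a = actZ g (actZ k a) :=
    fun g k a => by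
    simp [actZ, Matrix.mulVec_mulVec]
  rw [hmul, hmul, hw']
  have : actZ δ ![1, 0] = v' := by
    ext i; fin_cases i <;> simp [hδ, actZ, Matrix.mulVec, dotProduct, Fin.sum_univ_two]
  rw [this, hv', ← hmul, mul_inv_cancel]
  simp [actZ]

theorem act_castQ (g : SL(2, ℤ)) (a : Fin 2 → ℤ) : act g (castQ a) = castQ (actZ g a) :=
  act_intCast g a

theorem act_smul (g : SL(2, ℤ)) (c : ℚ) (x : Fin 2 → ℚ) : act g (c • x) = c • act g x :=
  actS_smul (intSL g) c x

/-- An element fixing a line has trace `± 2`. -/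
theorem trace_sq_of_fix {γ : SL(2, ℤ)} {x : Fin 2 → ℚ} (hx : x ≠ 0) {c : ℚ}
    (h : act γ x = c • x) : (γ : Matrix (Fin 2) (Fin 2) ℤ).trace ^ 2 = 4 := by
  obtain ⟨d, a, hd, ha, rfl⟩ := exists_primitive_vec hx
  rw [act_smul, smul_comm c d] at h
  have h' := smul_right_injective (Fin 2 → ℚ) hd h
  rw [act_castQ] at h'
  obtain ⟨x0, y0, hxy⟩ := ha
  set n : ℤ := x0 * actZ γ a 0 + y0 * actZ γ a 1 with hn
  have hc : c = (n : ℚ) := by
    have q0 := congrFun h' 0
    have q1 := congrFun h' 1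
    simp only [castQ, Pi.smul_apply, smul_eq_mul] at q0 q1
    have : ((x0 : ℚ) * a 0 + y0 * a 1) = 1 := by exact_mod_cast hxy
    rw [hn]; push_cast
    linear_combination (-c) * this - (x0 : ℚ) * q0 - (y0 : ℚ) * q1
  subst hc
  have q0 : actZ γ a 0 = n * a 0 := by
    have := congrFun h' 0; simp only [castQ, Pi.smul_apply, smul_eq_mul] at this;
    exact_mod_cast this
  have q1 : actZ γ a 1 = n * a 1 := by
    have := congrFun h' 1; simp only [castQ, Pi.smul_apply, smul_eq_mul] at this;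
    exact_mod_cast this
  simp only [actZ, Matrix.mulVec, dotProduct, Fin.sum_univ_two] at q0 q1
  have hdet : γ 0 0 * γ 1 1 - γ 0 1 * γ 1 0 = 1 := by rw [← Matrix.det_fin_two]; exact γ.det_coe
  have hchar : n * (γ 0 0 + γ 1 1 - n) = 1 := by
    linear_combination hdet - (x0 * (γ 1 1 - n) - y0 * γ 1 0) * q0
      - (-x0 * γ 0 1 + y0 * (γ 0 0 - n)) * q1
      + ((γ 0 0 - n) * (γ 1 1 - n) - γ 0 1 * γ 1 0) * hxy
  rw [Matrix.trace_fin_two]
  rcases Int.eq_one_or_neg_one_of_mul_eq_one hchar with h1 | h1 <;> rw [h1] at hchar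
  · have : γ 0 0 + γ 1 1 = 2 := by linarith
    rw [this]; norm_num
  · have : γ 0 0 + γ 1 1 = -2 := by linarith
    rw [this]; norm_num

variable {A : Type*} [AddCommGroup A]

/-- A parabolic homomorphism is the coboundary of a function on cusps. -/
theorem exists_cuspFun (Γ : Subgroup SL(2, ℤ)) (χ : Additive Γ →+ A)
    (hχ : IsParabolicHom Γ χ) :
    ∃ ψ : (Fin 2 → ℚ) → A, IsCuspFun ψ ∧ ∀ (γ : Γ) (x : Fin 2 → ℚ), x ≠ 0 →
      ψ (act (γ : SL(2, ℤ)) x) = ψ x + χ (Additive.ofMul γ) := by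
  classical
  -- Choose a representative in each orbit of `Γ` on lines.
  let rel : Setoid (Fin 2 → ℚ) :=
    { r := fun x y => ∃ (γ : Γ) (c : ℚ), c ≠ 0 ∧ act (γ : SL(2, ℤ)) x = c • y
      iseqv :=
        { refl := fun x => ⟨1, 1, one_ne_zero, by simp [act_one]⟩
          symm := fun {x y} ⟨γ, c, hc, h⟩ => ⟨γ⁻¹, c⁻¹, inv_ne_zero hc, by
            have e := congrArg (fun z => c⁻¹ • act ((γ⁻¹ : Γ) : SL(2, ℤ)) z) h
            simp only [← act_mul, ← Subgroup.coe_mul, inv_mul_cancel, OneMemClass.coe_one, act_one,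
              act_smul, smul_smul, inv_mul_cancel₀ hc, one_smul] at e
            exact e.symm⟩
          trans := fun {x y z} ⟨γ, c, hc, h⟩ ⟨δ, d, hd, h'⟩ => ⟨δ * γ, c * d, mul_ne_zero hc hd, by
            rw [Subgroup.coe_mul, act_mul, h, act_smul, h', smul_smul]⟩ } }
  let rep : (Fin 2 → ℚ) → (Fin 2 → ℚ) := fun x => Quotient.out (Quotient.mk rel x)
  have hrep : ∀ x, ∃ (γ : Γ) (c : ℚ), c ≠ 0 ∧ act (γ : SL(2, ℤ)) (rep x) = c • x := fun x =>
    Quotient.exact (Quotient.out_eq (Quotient.mk rel x))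
  choose G cc hcc hG using hrep
  -- An element fixing a line is parabolic, so `χ` of the connecting element is well defined.
  have hval : ∀ (x : Fin 2 → ℚ), x ≠ 0 → ∀ (δ : Γ) (d : ℚ), d ≠ 0 →
      act (δ : SL(2, ℤ)) (rep x) = d • x → χ (Additive.ofMul δ) = χ (Additive.ofMul (G x)) := by
    intro x hx δ d hd hδ
    have hr : rep x ≠ 0 := fun h0 => hx <| by
      have := hδ
      rw [h0, show act (δ : SL(2, ℤ)) 0 = 0 by simp [act]] at this
      exact (smul_eq_zero.mp this.symm).resolve_left hd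
    have hfix : act (((G x)⁻¹ * δ : Γ) : SL(2, ℤ)) (rep x) = (d / cc x) • rep x := by
      rw [Subgroup.coe_mul, act_mul, hδ, act_smul]
      have e : act (((G x)⁻¹ : Γ) : SL(2, ℤ)) (cc x • x) = rep x := by
        rw [← hG, ← act_mul, ← Subgroup.coe_mul, inv_mul_cancel, OneMemClass.coe_one, act_one]
      rw [act_smul] at e
      conv_rhs => rw [← e, smul_smul, div_mul_cancel₀ _ (hcc x)]
    have h0 := hχ _ (trace_sq_of_fix hr hfix)
    rw [ofMul_mul, ofMul_inv, map_add, map_neg, neg_add_eq_zero] at h0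
    exact h0.symm
  -- The function is `χ` of the element carrying the representative to the point.
  refine ⟨fun x => χ (Additive.ofMul (G x)), fun c x hc hx => ?_, fun γ x hx => ?_⟩
  · have e : rep (c • x) = rep x :=
      congrArg Quotient.out (Quotient.sound ⟨1, c, hc, by simp [act_one]⟩)
    refine hval x hx (G (c • x)) (cc (c • x) * c) (mul_ne_zero (hcc _) hc) ?_
    rw [← e, hG, smul_smul]
  · show χ (Additive.ofMul (G (act (γ : SL(2, ℤ)) x))) = χ _ + χ _
    have e : rep (act (γ : SL(2, ℤ)) x) = rep x :=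
      congrArg Quotient.out (Quotient.sound ⟨γ⁻¹, 1, one_ne_zero, by
        rw [one_smul, ← act_mul, ← Subgroup.coe_mul, inv_mul_cancel, OneMemClass.coe_one, act_one]⟩)
    rw [← hval _ (act_ne_zero _ hx) (γ * G x) (cc x) (hcc x) (by
      rw [e, Subgroup.coe_mul, act_mul, hG, act_smul]), ofMul_mul, map_add, add_comm]

end Fermat.Agent.LevelRaising
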